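import Fermat.Agent.RL.Riemann

set_option autoImplicit false

/-!
# RL task RL7-AddPoints : adding a general point to a special divisor does not create functions

If `D ≥ 0`, `L(D) = K` and `deg D < g`, then `L(D + v) = K` for all but finitely many places `v`.

PROOF.  Suppose the set `S` of bad `v` is infinite.  For `v ∈ S` choose `f_v ∈ L(D + v)` non constant; as `L(D) = K`, `f_v ∉ L(D)`, hence `v.ord f_v = -(D v + 1)` while `w.ord f_v ≥ - D w` for `w ≠ v`.
For distinct `v₁ … v_s ∈ S` (`Set.Infinite.exists_subset_card_eq`) the functions `1, f_{v₁}, …, f_{v_s}` lie in `L(A)`, `A = D + ∑ pt v_i`, and are linearly independent over `K`: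
in a non trivial relation look at a place `v_k` whose coefficient is `≠ 0`; the term `a_k f_{v_k}` has order `-(D v_k + 1)`, all the other terms have order `≥ - D v_k` (`D ≥ 0` for the constant term), contradiction
(`S24.ord_add_eq_of_lt`, or: `a_k f_{v_k} = - (rest) ∈ L(D + ∑_{i ≠ k} pt v_i)`, whose elements have order `≥ - D v_k` at `v_k`).  So `ℓ(A) ≥ s + 1` (`LinearIndependent.fintype_card_le_finrank` in the finite dimensional space `L(A)`, `finiteDimensional_LSpace`), `deg A = deg D + s`.
For `s` large `riemann_eq` gives `ℓ(A) = deg D + s + 1 - g`, so `deg D ≥ g`.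
-/

namespace Fermat.Agent.RL

open AlgebraicCurve Fermat.Agent.S24

variable {K F : Type*} [Field K] [Field F] [Algebra K F] [IsAlgClosed K] [CharZero K]
  (h : IsFF1 K F)

include h

theorem finite_not_onlyConst_add_pt {D : Divisor K F} (hE : Eff D) (hD : OnlyConst D)
    (hdeg : Divisor.degree D < genusR h) : {v : Place K F | ¬ OnlyConst (D + pt v)}.Finite := by
  classical
  by_contra hinf
  have hinf' : {v : Place K F | ¬ OnlyConst (D + pt v)}.Infinite := hinf
  have key : ∀ T : Finset (Place K F), (∀ v ∈ T, ¬ OnlyConst (D + pt v)) →
      T.card + 1 ≤ ell (D + ∑ v ∈ T, pt v) := by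
    intro T
    induction T using Finset.induction_on with
    | empty =>
      intro _
      rw [Finset.sum_empty, add_zero, (onlyConst_iff_ell_eq_one h hE).1 hD]
      simp
    | insert a T ha ih =>
      intro hT
      have ih' := ih fun v hv => hT v (Finset.mem_insert_of_mem hv)
      have hbad := hT a (Finset.mem_insert_self a T)
      unfold OnlyConst at hbad
      push Not at hbad
      obtain ⟨f, hf, hfc⟩ := hbad
      have hfD : f ∉ LSpace D := fun hh => hfc (hD f hh)
      have hf0 : f ≠ 0 := fun h0 => hfD (Or.inl h0)
      have hfv : ∀ w : Place K F, 0 ≤ w.ord f + (D + pt a) w := by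
        rcases hf with h0 | h0
        · exact absurd h0 hf0
        · exact h0
      have hfa : a.ord f + D a < 0 := by
        by_contra hcon
        apply hfD
        right
        intro w
        by_cases hw : w = a
        · subst hw; omega
        · have := hfv w
          rwa [Finsupp.add_apply, Finsupp.single_apply, if_neg (Ne.symm hw), add_zero] at this
      have hsum : (∑ v ∈ T, pt v : Divisor K F) a = 0 := by
        rw [Finsupp.finsetSum_apply]
        refine Finset.sum_eq_zero fun v hv => ?_
        rw [Finsupp.single_apply, if_neg]
        rintro rfl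
        exact ha hv
      have hsum0 : ∀ w, 0 ≤ (∑ v ∈ T, pt v : Divisor K F) w := by
        intro w
        rw [Finsupp.finsetSum_apply]
        refine Finset.sum_nonneg fun v _ => ?_
        rw [Finsupp.single_apply]
        split_ifs <;> omega
      have e : D + ∑ v ∈ insert a T, pt v = (D + ∑ v ∈ T, pt v) + pt a := by
        rw [Finset.sum_insert ha]
        abel
      have hlt : LSpace (D + ∑ v ∈ T, pt v) < LSpace (D + ∑ v ∈ insert a T, pt v) := by
        rw [e]
        refine lt_of_le_of_ne (LSpace_mono fun w => ?_) fun heq => ?_
        · rw [Finsupp.add_apply _ (pt a), Finsupp.single_apply]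
          split_ifs <;> omega
        · have h1 : f ∈ LSpace ((D + ∑ v ∈ T, pt v) + pt a) := by
            refine LSpace_mono (fun w => ?_) hf
            have := hsum0 w
            simp only [Finsupp.add_apply]
            omega
          rw [← heq] at h1
          rcases h1 with h0 | h0
          · exact hf0 h0
          · have := h0 a
            rw [Finsupp.add_apply, hsum] at this
            omega
      have := finiteDimensional_LSpace h (D + ∑ v ∈ insert a T, pt v)
      have h2 := Submodule.finrank_lt_finrank_of_lt hlt
      rw [Finset.card_insert_of_notMem ha]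
      unfold ell at ih' ⊢
      omega
  obtain ⟨c, hc⟩ := riemann_eq h
  obtain ⟨T, hTS, hTc⟩ := hinf'.exists_subset_card_eq (c - Divisor.degree D).toNat
  have h1 := key T fun v hv => hTS hv
  have hdegA : Divisor.degree (D + ∑ v ∈ T, pt v) = Divisor.degree D + T.card := by
    rw [map_add, map_sum, Finset.sum_congr rfl fun v _ => degree_pt h v]
    simp
  have h2 := hc (D + ∑ v ∈ T, pt v) (by
    rw [hdegA, hTc]
    have := Int.self_le_toNat (c - Divisor.degree D)
    omega)
  rw [hdegA] at h2
  omega

end Fermat.Agent.RL
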