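import Fermat.Agent.RL.Reduced
import Fermat.Prelude.Def_AlgebraicCurve_BaseChangeGalois

set_option autoImplicit false

/-!
# RL task RL6-Equivariant : compatibility with semilinear automorphisms

`g : SemilinearAut K F` acts on `F`, on places, divisors and `Pic⁰` (Prelude, `Def_AlgebraicCurve_BaseChangeGalois`).
Use `SemilinearAut.ord_smul : (g • v).ord (g • f) = v.ord f`, `SemilinearAut.divisor_smul_apply : (g • D) w = D (g⁻¹ • w)`,
`SemilinearAut.smul_algebraMap`, `SemilinearAut.degree_smul`, `SemilinearAut.smul_single`, `SemilinearAut.pic0_smul_mk`.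
`red_smul` follows from `isRed_unique`.
-/

namespace Fermat.Agent.RL

open AlgebraicCurve Fermat.Agent.S24

variable {K F : Type*} [Field K] [Field F] [Algebra K F]

theorem smul_mem_LSpace (g : SemilinearAut K F) {D : Divisor K F} {f : F} (hf : f ∈ LSpace D) :
    g • f ∈ LSpace (g • D) := by
  rcases hf with rfl | hf
  · left
    exact smul_zero g
  · right
    intro w
    have h1 := SemilinearAut.ord_smul g (g⁻¹ • w) f
    rw [smul_inv_smul] at h1
    rw [h1, SemilinearAut.divisor_smul_apply]
    exact hf _

theorem eff_smul (g : SemilinearAut K F) {D : Divisor K F} (hD : Eff D) : Eff (g • D) := by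
  intro w
  rw [SemilinearAut.divisor_smul_apply]
  exact hD _

theorem onlyConst_smul (g : SemilinearAut K F) {D : Divisor K F} (hD : OnlyConst D) :
    OnlyConst (g • D) := by
  intro f hf
  have h1 := smul_mem_LSpace g⁻¹ hf
  rw [inv_smul_smul] at h1
  obtain ⟨a, ha⟩ := hD _ h1
  refine ⟨SemilinearAut.baseAut g a, ?_⟩
  rw [← SemilinearAut.smul_algebraMap, ha, smul_inv_smul]

theorem onlyConst_smul_iff (g : SemilinearAut K F) {D : Divisor K F} :
    OnlyConst (g • D) ↔ OnlyConst D := by
  refine ⟨fun h => ?_, onlyConst_smul g⟩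
  have := onlyConst_smul g⁻¹ h
  rwa [inv_smul_smul] at this

theorem isRed_smul (g : SemilinearAut K F) {o : Place K F} (ho : g • o = o) {D : Divisor K F}
    (hD : IsRed o D) : IsRed o (g • D) := by
  refine ⟨eff_smul g hD.eff, ?_, onlyConst_smul g hD.const⟩
  have h1 : g⁻¹ • o = o := by
    rw [inv_smul_eq_iff, ho]
  rw [SemilinearAut.divisor_smul_apply, h1]
  exact hD.base

variable [IsAlgClosed K] [CharZero K] (h : IsFF1 K F)

include h

theorem clsOf_smul (g : SemilinearAut K F) {o : Place K F} (ho : g • o = o) (D : Divisor K F) :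
    g • clsOf h o D = clsOf h o (g • D) := by
  unfold clsOf
  rw [SemilinearAut.pic0_smul_mk]
  congr 1
  apply Subtype.ext
  rw [SemilinearAut.coe_degZeroSMulHom]
  show g • (D - Divisor.degree D • pt o) = g • D - Divisor.degree (g • D) • pt o
  rw [smul_sub, SemilinearAut.degree_smul, smul_comm, SemilinearAut.smul_single, ho]

theorem red_smul (g : SemilinearAut K F) {o : Place K F} (ho : g • o = o) (x : Pic0 K F) :
    red h o (g • x) = g • red h o x := by
  refine isRed_unique h o (isRed_red h o _) (isRed_smul g ho (isRed_red h o x)) ?_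
  rw [clsOf_red, ← clsOf_smul h g ho, clsOf_red]

end Fermat.Agent.RL
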