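import Fermat.Agent.RL.Defs

set_option autoImplicit false

/-!
# RL task RL1-Basic : divisors of functions, elementary properties of `L(D)` and of linear equivalence

Everything follows from `Fermat/Agent/S24/{PlaceBasic,Residue,SumOrd,Principal}.lean`:
`finite_ord_pos`, `sum_ord_pos`, `degree_eq_zero_of_principal`, `principal_degree_eq_sum`, `deg_eq_one`,
`transcendental_of_not_mem_range`, `ord_algebraMap`.

* `hasPrincipalDivisors`: for `f ∉ K` the support `{v | v.ord f ≠ 0}` is the union of the finite sets `{0 < v.ord f}`, `{0 < v.ord f⁻¹}`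
  (`Finsupp.ofSupportFinite` / `Finsupp.onFinset`); degree `0` by `degree_eq_zero_of_principal`.
* `onlyConst_zero`: if `f ∉ K` then `f⁻¹` is transcendental, `sum_ord_pos h` for `f⁻¹` equals `finrank > 0`
  (`Module.finrank_pos`, `h.finiteDimensional`), so `f` has a pole.
* `eq_zero_of_mem_LSpace_of_degree_neg`: `div f + D` is effective of degree `deg D < 0`.
* `LinEq.lequiv`: `g ↦ f * g`.

NOTE: `exists_eff_iff` needs `h : IsFF1 K F` (finiteness of the divisor of a function), so it now takes `h`.
-/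

namespace Fermat.Agent.RL

open AlgebraicCurve Fermat.Agent.S24

variable {K F : Type*} [Field K] [Field F] [Algebra K F]

theorem LSpace_mono {D D' : Divisor K F} (hD : ∀ v, D v ≤ D' v) : LSpace D ≤ LSpace D' := by
  rintro f (rfl | hf)
  · exact Or.inl rfl
  · right
    intro v
    have := hf v
    have := hD v
    omega

theorem algebraMap_mem_LSpace {D : Divisor K F} (hD : Eff D) (a : K) :
    algebraMap K F a ∈ LSpace D := by
  right
  intro v
  rw [ord_algebraMap, zero_add]
  exact hD v

theorem LinEq.refl (D : Divisor K F) : LinEq D D := ⟨1, one_ne_zero, fun v => by simp⟩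

theorem LinEq.symm {D D' : Divisor K F} (h : LinEq D D') : LinEq D' D := by
  obtain ⟨f, hf, h1⟩ := h
  refine ⟨f⁻¹, inv_ne_zero hf, fun v => ?_⟩
  rw [h1 v, Place.ord_inv]
  ring

theorem LinEq.trans {D D' D'' : Divisor K F} (h : LinEq D D') (h' : LinEq D' D'') :
    LinEq D D'' := by
  obtain ⟨f, hf, h1⟩ := h
  obtain ⟨g, hg, h2⟩ := h'
  refine ⟨f * g, mul_ne_zero hf hg, fun v => ?_⟩
  rw [h2 v, h1 v, v.ord_mul hf hg]
  ring

theorem LinEq.add {D D' E E' : Divisor K F} (h : LinEq D D') (h' : LinEq E E') :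
    LinEq (D + E) (D' + E') := by
  obtain ⟨f, hf, h1⟩ := h
  obtain ⟨g, hg, h2⟩ := h'
  refine ⟨f * g, mul_ne_zero hf hg, fun v => ?_⟩
  rw [Finsupp.add_apply, Finsupp.add_apply, h2 v, h1 v, v.ord_mul hf hg]
  ring

theorem LinEq.add_right {D D' : Divisor K F} (h : LinEq D D') (E : Divisor K F) :
    LinEq (D + E) (D' + E) := h.add (LinEq.refl E)

theorem linEq_iff_sub_mem_principal {D D' : Divisor K F} :
    LinEq D D' ↔ D' - D ∈ Divisor.principal (K := K) (F := F) := by
  constructor
  · rintro ⟨f, hf, h1⟩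
    exact ⟨f, hf, fun v => by rw [Finsupp.sub_apply, h1 v]; ring⟩
  · rintro ⟨f, hf, h1⟩
    refine ⟨f, hf, fun v => ?_⟩
    have := h1 v
    rw [Finsupp.sub_apply] at this
    omega

theorem basic_mul_mem {D D' : Divisor K F} {f : F} (hf : f ≠ 0)
    (h1 : ∀ v : Place K F, D' v = D v + v.ord f) {g : F} (hg : g ∈ LSpace D') :
    f * g ∈ LSpace D := by
  rcases hg with rfl | hg
  · left; rw [mul_zero]
  · by_cases hg0 : g = 0
    · left; rw [hg0, mul_zero]
    right
    intro v
    have := hg v
    rw [h1 v] at this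
    rw [v.ord_mul hf hg0]
    omega

/-- `L(D') ≃ L(D)`, `g ↦ f g`, if `D' = D + div f`. -/
theorem LinEq.exists_lequiv {D D' : Divisor K F} (h : LinEq D D') :
    Nonempty (LSpace D' ≃ₗ[K] LSpace D) := by
  obtain ⟨f, hf, h1⟩ := h
  have h2 : ∀ v : Place K F, D v = D' v + v.ord f⁻¹ := fun v => by
    rw [h1 v, Place.ord_inv]; ring
  exact ⟨{
    toFun := fun g => ⟨f * g, basic_mul_mem hf h1 g.2⟩
    map_add' := fun a b => Subtype.ext (by simp [mul_add])
    map_smul' := fun c a => Subtype.ext (by simp)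
    invFun := fun g => ⟨f⁻¹ * g, basic_mul_mem (inv_ne_zero hf) h2 g.2⟩
    left_inv := fun g => Subtype.ext (by simp [hf])
    right_inv := fun g => Subtype.ext (by simp [hf]) }⟩

theorem LinEq.ell_eq {D D' : Divisor K F} (h : LinEq D D') : ell D = ell D' := by
  obtain ⟨e⟩ := h.exists_lequiv
  exact e.finrank_eq.symm

variable [IsAlgClosed K] [CharZero K] (h : IsFF1 K F)

include h

theorem hasPrincipalDivisors : HasPrincipalDivisors K F := by
  classical
  refine ⟨fun f hf => ?_⟩
  by_cases hr : f ∈ Set.range (algebraMap K F)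
  · obtain ⟨a, rfl⟩ := hr
    exact ⟨0, fun v => by rw [ord_algebraMap]; rfl, map_zero _⟩
  have ht : Transcendental K f := transcendental_of_not_mem_range hr
  have ht' : Transcendental K f⁻¹ := by
    apply transcendental_of_not_mem_range
    rintro ⟨a, ha⟩
    apply hr
    exact ⟨a⁻¹, by rw [map_inv₀, ha, inv_inv]⟩
  let D : Divisor K F := Finsupp.onFinset
    ((finite_ord_pos h ht).toFinset ∪ (finite_ord_pos h ht').toFinset) (fun v => v.ord f)
    (fun v hv => by
      simp only [Finset.mem_union, Set.Finite.mem_toFinset, Set.mem_ofPred_eq, Place.ord_inv]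
      omega)
  have hD : ∀ v, D v = v.ord f := fun v => rfl
  exact ⟨D, hD, degree_eq_zero_of_principal h hf D hD⟩

/-- the divisor of a function. -/
theorem exists_div {f : F} (hf : f ≠ 0) :
    ∃ D : Divisor K F, (∀ v, D v = v.ord f) ∧ Divisor.degree D = 0 :=
  (hasPrincipalDivisors h).exists_divisor f hf

/-- `D` is equivalent to an effective divisor iff `L(D) ≠ 0`. -/
theorem exists_eff_iff {D : Divisor K F} :
    (∃ D', LinEq D D' ∧ Eff D') ↔ ∃ f ∈ LSpace D, f ≠ 0 := by
  constructor
  · rintro ⟨D', ⟨f, hf, h1⟩, hE⟩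
    refine ⟨f, Or.inr fun v => ?_, hf⟩
    have := hE v
    rw [h1 v] at this
    omega
  · rintro ⟨f, hf, hf0⟩
    obtain ⟨E, hE, -⟩ := exists_div h hf0
    refine ⟨D + E, ⟨f, hf0, fun v => by rw [Finsupp.add_apply, hE]⟩, fun v => ?_⟩
    rcases hf with h0 | h0
    · exact absurd h0 hf0
    · have := h0 v
      rw [Finsupp.add_apply, hE]
      omega

theorem degree_pt (v : Place K F) : Divisor.degree (pt v) = 1 := by
  rw [Divisor.degree_single, deg_eq_one h v]
  norm_num

theorem degree_nonneg_of_eff {D : Divisor K F} (hD : Eff D) : 0 ≤ Divisor.degree D := by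
  rw [principal_degree_eq_sum h]
  exact Finset.sum_nonneg fun v _ => hD v

theorem eq_zero_of_eff_of_degree_eq_zero {D : Divisor K F} (hD : Eff D)
    (h0 : Divisor.degree D = 0) : D = 0 := by
  rw [principal_degree_eq_sum h, Finset.sum_eq_zero_iff_of_nonneg fun v _ => hD v] at h0
  ext v
  by_cases hv : v ∈ D.support
  · exact h0 v hv
  · exact Finsupp.notMem_support_iff.1 hv

theorem LinEq.degree_eq {D D' : Divisor K F} (hl : LinEq D D') :
    Divisor.degree D = Divisor.degree D' := by
  obtain ⟨f, hf, h1⟩ := hl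
  obtain ⟨E, hE, hE0⟩ := exists_div h hf
  have : D' = D + E := by
    ext v
    rw [h1 v, Finsupp.add_apply, hE]
  rw [this, map_add, hE0, add_zero]

/-- a function without poles is constant. -/
theorem onlyConst_zero : OnlyConst (0 : Divisor K F) := by
  classical
  rintro f (rfl | hf)
  · exact ⟨0, map_zero _⟩
  by_contra hr
  have ht' : Transcendental K f⁻¹ := by
    apply transcendental_of_not_mem_range
    rintro ⟨a, ha⟩
    apply hr
    exact ⟨a⁻¹, by rw [map_inv₀, ha, inv_inv]⟩
  have h1 := sum_ord_pos h ht'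
  have h2 : (finite_ord_pos h ht').toFinset = ∅ := by
    ext v
    simp only [Set.Finite.mem_toFinset, Set.mem_ofPred_eq, Place.ord_inv, Finset.notMem_empty,
      iff_false]
    have := hf v
    rw [Finsupp.zero_apply] at this
    omega
  rw [h2, Finset.sum_empty] at h1
  have := h.finiteDimensional ht'
  have h3 : 0 < Module.finrank (IntermediateField.adjoin K {f⁻¹}) F := Module.finrank_pos
  omega

theorem eq_zero_of_mem_LSpace_of_degree_neg {D : Divisor K F} (hD : Divisor.degree D < 0) {f : F}
    (hf : f ∈ LSpace D) : f = 0 := by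
  by_contra hf0
  obtain ⟨D', hl, hE⟩ := (exists_eff_iff h).2 ⟨f, hf, hf0⟩
  have h1 := degree_nonneg_of_eff h hE
  rw [← hl.degree_eq h] at h1
  omega

/-- if `L(D)` contains only constants, `D` is the only effective divisor in its class. -/
theorem eq_of_linEq_of_onlyConst {D D' : Divisor K F} (hc : OnlyConst D) (hl : LinEq D D')
    (hE : Eff D') : D' = D := by
  obtain ⟨f, hf, h1⟩ := hl
  have hmem : f ∈ LSpace D := Or.inr fun v => by
    have := hE v
    rw [h1 v] at this
    omega
  obtain ⟨a, rfl⟩ := hc f hmem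
  ext v
  rw [h1 v, ord_algebraMap, add_zero]

end Fermat.Agent.RL
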