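import Fermat.Agent.RL.Dim

set_option autoImplicit false

/-!
# RL task RL3-Bound : `deg D - ℓ(D)` is bounded above  (Stichtenoth, Prop. 1.4.14)

Let `x` be transcendental with `n = [F : K(x)] < ∞` (from `h`), `B = (x)_∞` the pole divisor (`B v = max 0 (- v.ord x)`); `deg B = n` (`S24.sum_ord_pos` for `x⁻¹`, `principal_adjoin_inv_eq`).
1. Choose a basis `u₁ … u_n` of `F / K(x)` and an effective divisor `C` with `u_i ∈ L(C)` (sum of the pole divisors).  For `l ≥ 0` the elements `x^i u_j`, `0 ≤ i ≤ l`,
   lie in `L(l B + C)` and are linearly independent over `K` (the `x^i` are independent over `K` since `x` is transcendental, the `u_j` over `K(x)`), so `ℓ(l B + C) ≥ (l + 1) n`.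
2. `ℓ(l B) ≥ ℓ(l B + C) - deg C` (`degree_sub_ell_mono`), so `deg (l B) - ℓ(l B) ≤ deg C - n =: γ` for all `l ≥ 0`.
3. For arbitrary `D`: let `D₁ = D₊ ≥ D` (positive part).  `ℓ(l B - D₁) ≥ ℓ(l B) - deg D₁ ≥ l n - γ - deg D₁ > 0` for `l` large, so there is `z ≠ 0` with `D₁ - div z ≤ l B`, and
   `deg D - ℓ(D) ≤ deg D₁ - ℓ(D₁) = deg (D₁ - div z) - ℓ(D₁ - div z) ≤ deg (l B) - ℓ(l B) ≤ γ`  (`degree_sub_ell_mono`, `LinEq.ell_eq`, `LinEq.degree_eq`).
-/

namespace Fermat.Agent.RL

open AlgebraicCurve Fermat.Agent.S24 IntermediateField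

section
variable {K F : Type*} [Field K] [Field F] [Algebra K F]

/-- the negative part of a divisor. -/
noncomputable def boundNeg (E : Divisor K F) : Divisor K F :=
  E.mapRange (fun z => max 0 (-z)) (by simp)

theorem boundNeg_apply (E : Divisor K F) (v : Place K F) : boundNeg E v = max 0 (-(E v)) :=
  Finsupp.mapRange_apply ..

/-- powers of a transcendental element are linearly independent. -/
theorem bound_linearIndependent_pow {A : Type*} [CommRing A] [Algebra K A] {x : A}
    (hx : Transcendental K x) : LinearIndependent K fun i : ℕ => x ^ i := by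
  have h1 := (Polynomial.basisMonomials K).linearIndependent
  have h2 := h1.map' (Polynomial.aeval x).toLinearMap
    (LinearMap.ker_eq_bot.2 (transcendental_iff_injective.1 hx))
  have e : ((Polynomial.aeval x).toLinearMap ∘ (Polynomial.basisMonomials K)) =
      fun i : ℕ => x ^ i := by
    funext i
    simp
  rw [e] at h2
  exact h2

end

variable {K F : Type*} [Field K] [Field F] [Algebra K F] [IsAlgClosed K] [CharZero K]
  (h : IsFF1 K F)

include h

theorem exists_bound : ∃ γ : ℤ, ∀ D : Divisor K F, Divisor.degree D - ell D ≤ γ := by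
  classical
  obtain ⟨x, hx, hfd⟩ := id h
  have hx0 : x ≠ 0 := by
    rintro rfl
    exact hx isAlgebraic_zero
  obtain ⟨E, hE, -⟩ := exists_div h hx0
  set B : Divisor K F := boundNeg E with hB
  have hBv : ∀ v, B v = max 0 (-(v.ord x)) := fun v => by rw [hB, boundNeg_apply, hE]
  set n : ℕ := Module.finrank K⟮x⟯ F with hn
  have hn0 : 0 < n := Module.finrank_pos
  have hx' : Transcendental K x⁻¹ := by
    intro hh
    apply hx
    have := hh.inv
    rwa [inv_inv] at this
  have hdegB : Divisor.degree B = n := by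
    rw [principal_degree_eq_sum h]
    have hsupp : B.support = (finite_ord_pos h hx').toFinset := by
      ext v
      simp only [Finsupp.mem_support_iff, hBv, Set.Finite.mem_toFinset, Set.mem_ofPred_eq,
        Place.ord_inv]
      omega
    have h1 := sum_ord_pos h hx'
    rw [principal_adjoin_inv_eq] at h1
    rw [hsupp, hn, ← h1]
    refine Finset.sum_congr rfl fun v hv => ?_
    simp only [Set.Finite.mem_toFinset, Set.mem_ofPred_eq, Place.ord_inv] at hv
    rw [hBv, Place.ord_inv]
    omega
  let u := Module.finBasis K⟮x⟯ F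
  have hu0 : ∀ j, u j ≠ 0 := u.ne_zero
  choose Eu hEu _hEu' using fun j => exists_div h (hu0 j)
  set C : Divisor K F := ∑ j, boundNeg (Eu j) with hC
  have hCv : ∀ v j, max 0 (-(v.ord (u j))) ≤ C v := by
    intro v j
    rw [hC, Finsupp.finsetSum_apply, ← hEu, ← boundNeg_apply]
    exact Finset.single_le_sum (f := fun j => boundNeg (Eu j) v)
      (fun i _ => by rw [boundNeg_apply]; exact le_max_left _ _) (Finset.mem_univ j)
  have hC0 : ∀ v, 0 ≤ C v := by
    intro v
    rw [hC, Finsupp.finsetSum_apply]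
    exact Finset.sum_nonneg fun i _ => by rw [boundNeg_apply]; exact le_max_left _ _
  have hgen : Transcendental K (AdjoinSimple.gen K x) := by
    rw [← transcendental_algebraMap_iff (algebraMap K⟮x⟯ F).injective,
      AdjoinSimple.algebraMap_gen]
    exact hx
  -- step 1
  have step1 : ∀ l : ℕ, (l + 1) * n ≤ ell (l • B + C) := by
    intro l
    have hb : LinearIndependent K fun i : Fin (l + 1) => (AdjoinSimple.gen K x) ^ (i : ℕ) :=
      (bound_linearIndependent_pow hgen).comp (fun i : Fin (l + 1) => (i : ℕ)) Fin.val_injective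
    have hw := linearIndependent_smul hb u.linearIndependent
    have hmem : ∀ p : Fin (l + 1) × Fin n,
        (AdjoinSimple.gen K x) ^ (p.1 : ℕ) • u p.2 ∈ LSpace (l • B + C) := by
      rintro ⟨i, j⟩
      right
      intro v
      have e : (AdjoinSimple.gen K x) ^ (i : ℕ) • u j = x ^ (i : ℕ) * u j := by
        rw [Algebra.smul_def, map_pow, AdjoinSimple.algebraMap_gen]
      simp only [e]
      rw [v.ord_mul (pow_ne_zero _ hx0) (hu0 j), ord_pow, Finsupp.add_apply, Finsupp.smul_apply,
        nsmul_eq_mul]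
      have h1 := hCv v j
      have h2 : (0 : ℤ) ≤ B v := by rw [hBv]; exact le_max_left _ _
      have h3 : -(v.ord x) ≤ B v := by rw [hBv]; exact le_max_right _ _
      have h4 : ((i : ℕ) : ℤ) * (-(v.ord x)) ≤ ((i : ℕ) : ℤ) * B v :=
        mul_le_mul_of_nonneg_left h3 (Int.natCast_nonneg _)
      have h5 : ((i : ℕ) : ℤ) * B v ≤ (l : ℤ) * B v :=
        mul_le_mul_of_nonneg_right (by have := i.2; omega) h2
      have h6 : -(v.ord (u j)) ≤ C v := le_trans (le_max_right _ _) h1
      linarith
    have hw' : LinearIndependent K fun p : Fin (l + 1) × Fin n =>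
        (⟨_, hmem p⟩ : LSpace (l • B + C)) :=
      LinearIndependent.of_comp (LSpace (l • B + C)).subtype hw
    have := finiteDimensional_LSpace h (l • B + C)
    have h7 := hw'.fintype_card_le_finrank
    rw [Fintype.card_prod, Fintype.card_fin, Fintype.card_fin] at h7
    exact h7
  -- step 2
  have step2 : ∀ l : ℕ, Divisor.degree (l • B) - ell (l • B) ≤ Divisor.degree C - n := by
    intro l
    have h1 := degree_sub_ell_mono h (D := l • B) (D' := l • B + C) fun v => by
      rw [Finsupp.add_apply]
      have := hC0 v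
      omega
    have h2 := step1 l
    rw [map_add, map_nsmul, hdegB] at h1
    rw [map_nsmul, hdegB]
    have h3 : (((l + 1) * n : ℕ) : ℤ) ≤ (ell (l • B + C) : ℤ) := by exact_mod_cast h2
    push_cast at h3
    simp only [nsmul_eq_mul] at h1 ⊢
    linarith
  -- step 3
  refine ⟨Divisor.degree C - n, fun D => ?_⟩
  set D₁ : Divisor K F := boundNeg (-D) with hD₁
  have hD₁v : ∀ v, D₁ v = max 0 (D v) := fun v => by
    rw [hD₁, boundNeg_apply, Finsupp.neg_apply, neg_neg]
  set l : ℕ := (Divisor.degree C - n + Divisor.degree D₁ + 1).toNat with hl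
  have hl' : Divisor.degree C - n + Divisor.degree D₁ + 1 ≤ (l : ℤ) := Int.self_le_toNat _
  have h1 := degree_sub_ell_mono h (D := l • B - D₁) (D' := l • B) fun v => by
    rw [Finsupp.sub_apply, hD₁v]
    have := le_max_left 0 (D v)
    omega
  have h2 := step2 l
  have hpos : 0 < ell (l • B - D₁) := by
    rw [map_sub] at h1
    have h3 : Divisor.degree (l • B) = (l : ℤ) * n := by
      rw [map_nsmul, hdegB, nsmul_eq_mul]
    have h4 : (l : ℤ) ≤ (l : ℤ) * n := by
      have : (1 : ℤ) ≤ n := by exact_mod_cast hn0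
      nlinarith [Int.natCast_nonneg l]
    have h5 : (0 : ℤ) < (ell (l • B - D₁) : ℤ) := by linarith
    exact_mod_cast h5
  obtain ⟨z, hz, hz0⟩ := (ell_pos_iff h).1 hpos
  obtain ⟨Ez, hEz, -⟩ := exists_div h hz0
  have hlin : LinEq D₁ (D₁ - Ez) := ⟨z⁻¹, inv_ne_zero hz0, fun v => by
    rw [Finsupp.sub_apply, hEz, Place.ord_inv]; ring⟩
  have m1 := degree_sub_ell_mono h (D := D) (D' := D₁) fun v => by
    rw [hD₁v]; exact le_max_right _ _
  have m2 := degree_sub_ell_mono h (D := D₁ - Ez) (D' := l • B) fun v => by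
    rcases mem_LSpace.1 hz with h0 | h0
    · exact absurd h0 hz0
    · have := h0 v
      rw [Finsupp.sub_apply] at this
      rw [Finsupp.sub_apply, hEz]
      omega
  rw [← hlin.ell_eq, ← hlin.degree_eq h] at m2
  linarith

end Fermat.Agent.RL
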