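import Fermat.Agent.S24.Principal
import Fermat.Agent.S24.Avoid

set_option autoImplicit false

/-!
# Chapter RL ("Riemann lite"): definitions

`K` algebraically closed of characteristic `0`, `F / K` a function field of one variable in the sense of
`Fermat.Agent.S24.IsFF1`.  We define the Riemann-Roch spaces `L(D)` and prove (in the other files of the chapter)
Riemann's theorem and the existence and uniqueness of reduced divisors.  No differentials, no duality.
-/

namespace Fermat.Agent.RL

open AlgebraicCurve Fermat.Agent.S24

variable {K F : Type*} [Field K] [Field F] [Algebra K F]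

/-- `L(D) = {f : div f + D ≥ 0} ∪ {0}`. -/
def LSpace (D : Divisor K F) : Submodule K F where
  carrier := {f | f = 0 ∨ ∀ v : Place K F, 0 ≤ v.ord f + D v}
  zero_mem' := Or.inl rfl
  add_mem' := by
    rintro f g (rfl | hf) (rfl | hg)
    · left; simp
    · right; simpa using hg
    · right; simpa using hf
    · by_cases h0 : f + g = 0
      · exact Or.inl h0
      · right
        intro v
        have h1 := min_le_ord_add v h0
        have h2 := hf v
        have h3 := hg v
        rcases min_le_iff.1 h1 with h | h <;> omega
  smul_mem' := by
    rintro a f (rfl | hf)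
    · left; simp
    · by_cases ha : a = 0
      · left; simp [ha]
      · by_cases hf0 : f = 0
        · left; simp [hf0]
        · right
          intro v
          rw [Algebra.smul_def, v.ord_mul ((map_ne_zero _).2 ha) hf0, ord_algebraMap, zero_add]
          exact hf v

theorem mem_LSpace {D : Divisor K F} {f : F} :
    f ∈ LSpace D ↔ f = 0 ∨ ∀ v : Place K F, 0 ≤ v.ord f + D v := Iff.rfl

/-- `ℓ(D) = dim L(D)`. -/
noncomputable def ell (D : Divisor K F) : ℕ := Module.finrank K (LSpace D)

/-- effective divisors. -/
def Eff (D : Divisor K F) : Prop := ∀ v, 0 ≤ D v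

/-- linear equivalence: `D' = D + div f`. -/
def LinEq (D D' : Divisor K F) : Prop := ∃ f : F, f ≠ 0 ∧ ∀ v : Place K F, D' v = D v + v.ord f

/-- `L(D)` consists of constants only. -/
def OnlyConst (D : Divisor K F) : Prop := ∀ f ∈ LSpace D, f ∈ Set.range (algebraMap K F)

/-- the point `v` as a divisor. -/
noncomputable abbrev pt (v : Place K F) : Divisor K F := Finsupp.single v 1

/-- `D` is reduced with respect to the base place `o`. -/
structure IsRed (o : Place K F) (D : Divisor K F) : Prop where
  eff : Eff D
  base : D o = 0
  const : OnlyConst D

end Fermat.Agent.RL
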