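import Fermat.Agent.RL.Basic

set_option autoImplicit false

/-!
# RL task RL2-Dim : dimension of `L(D)`

* `exists_smul_sub_mem` (codimension `≤ 1`): let `t` be a uniformiser at `v` (`S24.exists_ord_eq_one`), `n = D v + 1`.  `g ∉ L(D)`, `g ∈ L(D + v)` forces
  `v.ord g = -n`.  `f / g` is regular at `v`; let `a` be its value (`S24.exists_const_sub`): `f / g = a` or `0 < v.ord (f / g - a)`, so
  `v.ord (f - a g) > -n`; at the other places nothing changes.
* `finiteDimensional_LSpace`, `ell_add_pt_le`: `L(D)` has codimension `≤ 1` in `L(D + v)`; induction: write `D ≤ D₊` (positive part), and go from a divisor of negative degree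
  (`L = 0`, `eq_zero_of_mem_LSpace_of_degree_neg`) up to `D` by adding points one at a time; e.g. prove by induction on `n : ℕ`: `deg D < n → FiniteDimensional ∧ ell D ≤ n`, using `D = (D - pt v) + pt v` for any place `v`
  (places exist: `S24.exists_ord_pos…`, or `sum_ord_pos` for the transcendental element given by `h`).
  A convenient criterion: if `W ≤ W'` are submodules, `W` finite dimensional, `g ∈ W'` and `∀ f ∈ W', ∃ a, f - a • g ∈ W` then `W' ≤ W ⊔ span {g}`.
* `degree_sub_ell_mono`: induction on `∑ (D' v - D v)` (`Finsupp.induction` on `D' - D`), one point at a time.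
-/

namespace Fermat.Agent.RL

open AlgebraicCurve Fermat.Agent.S24

variable {K F : Type*} [Field K] [Field F] [Algebra K F] [IsAlgClosed K] [CharZero K]
  (h : IsFF1 K F)

include h

theorem exists_place : Nonempty (Place K F) := by
  classical
  obtain ⟨x, hx, hfd⟩ := id h
  by_contra hne
  have h1 := sum_ord_pos h hx
  have h2 : (finite_ord_pos h hx).toFinset = ∅ := by
    ext v
    exact absurd ⟨v⟩ hne
  rw [h2, Finset.sum_empty] at h1
  have h3 : 0 < Module.finrank (IntermediateField.adjoin K {x}) F := Module.finrank_pos
  omega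

theorem exists_smul_sub_mem (D : Divisor K F) (v : Place K F) {f g : F}
    (hf : f ∈ LSpace (D + pt v)) (hg : g ∈ LSpace (D + pt v)) (hg' : g ∉ LSpace D) :
    ∃ a : K, f - a • g ∈ LSpace D := by
  classical
  have hg0 : g ≠ 0 := fun h0 => hg' (Or.inl h0)
  have hgv : ∀ w : Place K F, 0 ≤ w.ord g + (D + pt v) w := by
    rcases hg with h0 | h0
    · exact absurd h0 hg0
    · exact h0
  have hpt : ∀ w : Place K F, w ≠ v → (D + pt v) w = D w := by
    intro w hw
    rw [Finsupp.add_apply, Finsupp.single_apply, if_neg (Ne.symm hw), add_zero]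
  have hptv : (D + pt v) v = D v + 1 := by
    rw [Finsupp.add_apply, Finsupp.single_apply, if_pos rfl]
  have hgord : v.ord g + D v = -1 := by
    by_contra hcon
    apply hg'
    right
    intro w
    by_cases hw : w = v
    · subst hw
      have := hgv w
      rw [hptv] at this
      omega
    · have := hgv w
      rwa [hpt w hw] at this
  by_cases hf0 : f = 0
  · exact ⟨0, by rw [hf0, zero_smul, sub_zero]; exact Or.inl rfl⟩
  have hfv : ∀ w : Place K F, 0 ≤ w.ord f + (D + pt v) w := by
    rcases hf with h0 | h0
    · exact absurd h0 hf0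
    · exact h0
  have hq : 0 ≤ v.ord (f / g) := by
    rw [ord_div v hf0 hg0]
    have := hfv v
    rw [hptv] at this
    omega
  obtain ⟨c, hc⟩ := exists_const_sub h v hq
  refine ⟨c, ?_⟩
  have hmem : f - c • g ∈ LSpace (D + pt v) := Submodule.sub_mem _ hf (Submodule.smul_mem _ c hg)
  by_cases hz : f - c • g = 0
  · exact Or.inl hz
  rcases hc with hc | hc
  · exfalso
    apply hz
    rw [Algebra.smul_def, ← hc, div_mul_cancel₀ _ hg0, sub_self]
  right
  intro w
  have hmemw : 0 ≤ w.ord (f - c • g) + (D + pt v) w := by
    rcases hmem with h0 | h0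
    · exact absurd h0 hz
    · exact h0 w
  by_cases hw : w = v
  · subst hw
    have e : f - c • g = g * (f / g - algebraMap K F c) := by
      rw [Algebra.smul_def, mul_sub, mul_div_cancel₀ _ hg0, mul_comm g]
    have hne : f / g - algebraMap K F c ≠ 0 := by
      intro h0
      apply hz
      rw [e, h0, mul_zero]
    rw [e, w.ord_mul hg0 hne]
    omega
  · rwa [hpt w hw] at hmemw

theorem dim_step (D : Divisor K F) (v : Place K F) (hfd : FiniteDimensional K (LSpace D)) :
    FiniteDimensional K (LSpace (D + pt v)) ∧ ell (D + pt v) ≤ ell D + 1 := by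
  classical
  have hle : LSpace D ≤ LSpace (D + pt v) := LSpace_mono fun w => by
    rw [Finsupp.add_apply, Finsupp.single_apply]
    split_ifs <;> omega
  by_cases hsub : LSpace (D + pt v) ≤ LSpace D
  · have e : LSpace (D + pt v) = LSpace D := le_antisymm hsub hle
    refine ⟨by rw [e]; exact hfd, ?_⟩
    unfold ell
    rw [e]
    omega
  · obtain ⟨g, hg, hg'⟩ := SetLike.not_le_iff_exists.1 hsub
    have hsup : LSpace (D + pt v) ≤ LSpace D ⊔ K ∙ g := by
      intro f hf
      obtain ⟨a, ha⟩ := exists_smul_sub_mem h D v hf hg hg'
      have e : f = (f - a • g) + a • g := by ring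
      rw [e]
      exact Submodule.add_mem_sup ha (Submodule.smul_mem _ a (Submodule.mem_span_singleton_self g))
    have hfd2 : FiniteDimensional K (LSpace D ⊔ K ∙ g : Submodule K F) := inferInstance
    refine ⟨Submodule.finiteDimensional_of_le hsup, ?_⟩
    have h1 := Submodule.finrank_mono hsup
    have h2 := Submodule.finrank_add_le_finrank_add_finrank (LSpace D) (K ∙ g)
    have h3 : Module.finrank K (K ∙ g) ≤ 1 := by
      have := finrank_span_le_card (R := K) ({g} : Set F)
      simpa using this
    unfold ell
    omega

theorem dim_bot_of_degree_neg {D : Divisor K F} (hD : Divisor.degree D < 0) : LSpace D = ⊥ := by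
  rw [eq_bot_iff]
  intro f hf
  exact (Submodule.mem_bot K).2 (eq_zero_of_mem_LSpace_of_degree_neg h hD hf)

theorem finiteDimensional_LSpace (D : Divisor K F) : FiniteDimensional K (LSpace D) := by
  obtain ⟨v⟩ := exists_place h
  have key : ∀ (n : ℕ) (D : Divisor K F), Divisor.degree D < n →
      FiniteDimensional K (LSpace D) := by
    intro n
    induction n with
    | zero =>
      intro D hD
      rw [dim_bot_of_degree_neg h (by simpa using hD)]
      infer_instance
    | succ n ih =>
      intro D hD
      have h1 : Divisor.degree (D - pt v) < n := by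
        rw [map_sub, degree_pt h]
        push_cast at hD
        omega
      have h2 := (dim_step h (D - pt v) v (ih _ h1)).1
      rwa [sub_add_cancel] at h2
  exact key (Divisor.degree D + 1).toNat D (by have := Int.self_le_toNat (Divisor.degree D + 1); omega)

theorem ell_mono {D D' : Divisor K F} (hD : ∀ v, D v ≤ D' v) : ell D ≤ ell D' := by
  have := finiteDimensional_LSpace h D'
  exact Submodule.finrank_mono (LSpace_mono hD)

theorem ell_add_pt_le (D : Divisor K F) (v : Place K F) : ell (D + pt v) ≤ ell D + 1 :=
  (dim_step h D v (finiteDimensional_LSpace h D)).2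

theorem ell_eq_zero_of_degree_neg {D : Divisor K F} (hD : Divisor.degree D < 0) : ell D = 0 := by
  unfold ell
  rw [dim_bot_of_degree_neg h hD]
  exact finrank_bot K F

theorem ell_pos_iff {D : Divisor K F} : 0 < ell D ↔ ∃ f ∈ LSpace D, f ≠ 0 := by
  have := finiteDimensional_LSpace h D
  unfold ell
  rw [Module.finrank_pos_iff, Submodule.nontrivial_iff_ne_bot, Submodule.ne_bot_iff]

theorem dim_eq_span_one {D : Divisor K F} (hD : Eff D) (hc : OnlyConst D) :
    LSpace D = K ∙ (1 : F) := by
  apply le_antisymm
  · intro f hf
    obtain ⟨a, rfl⟩ := hc f hf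
    rw [Submodule.mem_span_singleton]
    exact ⟨a, by rw [Algebra.smul_def, mul_one]⟩
  · rw [Submodule.span_singleton_le_iff_mem]
    have := algebraMap_mem_LSpace hD (1 : K)
    rwa [map_one] at this

theorem ell_zero : ell (0 : Divisor K F) = 1 := by
  unfold ell
  rw [dim_eq_span_one h (fun v => le_refl _) (onlyConst_zero h)]
  exact finrank_span_singleton one_ne_zero

theorem onlyConst_iff_ell_eq_one {D : Divisor K F} (hD : Eff D) : OnlyConst D ↔ ell D = 1 := by
  constructor
  · intro hc
    unfold ell
    rw [dim_eq_span_one h hD hc]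
    exact finrank_span_singleton one_ne_zero
  · intro h1 f hf
    have := finiteDimensional_LSpace h D
    have hle : K ∙ (1 : F) ≤ LSpace D := by
      rw [Submodule.span_singleton_le_iff_mem]
      have := algebraMap_mem_LSpace hD (1 : K)
      rwa [map_one] at this
    have e : K ∙ (1 : F) = LSpace D := by
      apply Submodule.eq_of_le_of_finrank_eq hle
      rw [finrank_span_singleton one_ne_zero]
      exact h1.symm
    rw [← e, Submodule.mem_span_singleton] at hf
    obtain ⟨a, rfl⟩ := hf
    exact ⟨a, by rw [Algebra.smul_def, mul_one]⟩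

theorem degree_sub_ell_mono {D D' : Divisor K F} (hD : ∀ v, D v ≤ D' v) :
    Divisor.degree D - ell D ≤ Divisor.degree D' - ell D' := by
  classical
  have key : ∀ (n : ℕ) (D' : Divisor K F), (∀ v, D v ≤ D' v) →
      Divisor.degree D' - Divisor.degree D = n →
      Divisor.degree D - ell D ≤ Divisor.degree D' - ell D' := by
    intro n
    induction n with
    | zero =>
      intro D' hD hn
      have h0 : D' - D = 0 := eq_zero_of_eff_of_degree_eq_zero h
        (fun v => by rw [Finsupp.sub_apply]; have := hD v; omega)
        (by rw [map_sub]; simpa using hn)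
      rw [sub_eq_zero.1 h0]
    | succ n ih =>
      intro D' hD hn
      obtain ⟨v, hv⟩ : ∃ v, D v < D' v := by
        by_contra hcon
        push Not at hcon
        have : D' = D := by
          ext v
          exact le_antisymm (hcon v) (hD v)
        rw [this, sub_self] at hn
        push_cast at hn
        omega
      have h1 := ih (D' - pt v) (fun w => by
        rw [Finsupp.sub_apply, Finsupp.single_apply]
        split_ifs with hw
        · subst hw; omega
        · have := hD w; omega)
        (by rw [map_sub, degree_pt h]; push_cast at hn; omega)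
      have h2 := ell_add_pt_le h (D' - pt v) v
      rw [sub_add_cancel] at h2
      rw [map_sub, degree_pt h] at h1
      omega
  have hdeg : 0 ≤ Divisor.degree D' - Divisor.degree D := by
    rw [← map_sub]
    exact degree_nonneg_of_eff h fun v => by rw [Finsupp.sub_apply]; have := hD v; omega
  obtain ⟨n, hn⟩ := Int.eq_ofNat_of_zero_le hdeg
  exact key n D' hD hn

theorem ell_le_degree_add_one {D : Divisor K F} (hD : 0 ≤ Divisor.degree D) :
    (ell D : ℤ) ≤ Divisor.degree D + 1 := by
  obtain ⟨v⟩ := exists_place h
  have key : ∀ (n : ℕ) (D : Divisor K F), Divisor.degree D + 1 = n → ell D ≤ n := by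
    intro n
    induction n with
    | zero =>
      intro D hD
      rw [ell_eq_zero_of_degree_neg h (by push_cast at hD; omega)]
    | succ n ih =>
      intro D hD
      have h1 := ih (D - pt v) (by rw [map_sub, degree_pt h]; push_cast at hD; omega)
      have h2 := ell_add_pt_le h (D - pt v) v
      rw [sub_add_cancel] at h2
      omega
  obtain ⟨n, hn⟩ := Int.eq_ofNat_of_zero_le (by omega : 0 ≤ Divisor.degree D + 1)
  have := key n D hn
  omega

/-- `ℓ(D - v) ≥ ℓ(D) - 1`. -/
theorem ell_le_ell_sub_pt_add_one (D : Divisor K F) (v : Place K F) :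
    ell D ≤ ell (D - pt v) + 1 := by
  have h2 := ell_add_pt_le h (D - pt v) v
  rwa [sub_add_cancel] at h2

end Fermat.Agent.RL
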