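import Fermat.Agent.RL.Riemann

set_option autoImplicit false

/-!
# RL task RL5-Reduced : reduced divisors with respect to a base place `o`

Every class `x ∈ Pic⁰` is `[D - deg D · o]` for a unique reduced `D` (`D ≥ 0`, `D o = 0`, `L(D) = K`), and `deg D ≤ g`.

* existence: write `x = Pic0.mk ⟨A, _⟩`.  The set of `r : ℕ` such that `A + r • pt o` is equivalent to an effective divisor contains `g` (`exists_eff_of_genus_le`); let `r` be minimal (`Nat.find`), `D` effective,
  `LinEq (A + r • pt o) D`.  `D o = 0`: otherwise `D - pt o` is effective and equivalent to `A + (r - 1) • pt o` (and `r ≥ 1` because `deg D = r`).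
  `OnlyConst D`: otherwise `ℓ(D) ≥ 2` (`onlyConst_iff_ell_eq_one`, `ell_pos_iff`), so `ℓ(D - pt o) ≥ 1` (`ell_le_ell_sub_pt_add_one`), so `D - pt o` is equivalent to an effective divisor: contradiction again
  (if `r = 0` then `D = 0` by `eq_zero_of_eff_of_degree_eq_zero` and `onlyConst_zero` applies).
* uniqueness: w.l.o.g. `deg D ≤ deg D'`; `D + (deg D' - deg D) • pt o` is effective and equivalent to `D'`; `eq_of_linEq_of_onlyConst`; evaluate at `o`.
* `Pic0.mk a = Pic0.mk b ↔ ` the difference is principal: `QuotientAddGroup.eq`, `AddSubgroup.mem_addSubgroupOf`, `linEq_iff_sub_mem_principal`.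
-/

namespace Fermat.Agent.RL

open AlgebraicCurve Fermat.Agent.S24

variable {K F : Type*} [Field K] [Field F] [Algebra K F] [IsAlgClosed K] [CharZero K]
  (h : IsFF1 K F)

include h

theorem sub_degree_smul_mem_degZero (o : Place K F) (D : Divisor K F) :
    D - Divisor.degree D • pt o ∈ Divisor.degZero (K := K) (F := F) := by
  rw [Divisor.mem_degZero, map_sub, map_zsmul, Divisor.degree_single, deg_eq_one h]
  simp

/-- the class of `D - deg D · o`. -/
noncomputable def clsOf (o : Place K F) (D : Divisor K F) : Pic0 K F :=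
  Pic0.mk ⟨D - Divisor.degree D • pt o, sub_degree_smul_mem_degZero h o D⟩

theorem clsOf_add (o : Place K F) (D D' : Divisor K F) :
    clsOf h o (D + D') = clsOf h o D + clsOf h o D' := by
  unfold clsOf
  rw [← Pic0.mk_add]
  congr 1
  apply Subtype.ext
  show D + D' - Divisor.degree (D + D') • pt o =
    (D - Divisor.degree D • pt o) + (D' - Divisor.degree D' • pt o)
  rw [map_add, add_smul]
  abel

theorem clsOf_zero (o : Place K F) : clsOf h o 0 = 0 := by
  have := clsOf_add h o 0 0
  rw [add_zero] at this
  exact left_eq_add.mp this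

theorem clsOf_sum {ι : Type*} (s : Finset ι) (o : Place K F) (D : ι → Divisor K F) :
    clsOf h o (∑ i ∈ s, D i) = ∑ i ∈ s, clsOf h o (D i) := by
  classical
  induction s using Finset.induction_on with
  | empty => simpa using clsOf_zero h o
  | insert i s hi ih => rw [Finset.sum_insert hi, Finset.sum_insert hi, clsOf_add, ih]

theorem clsOf_eq_iff (o : Place K F) {D D' : Divisor K F} :
    clsOf h o D = clsOf h o D' ↔
      LinEq (D - Divisor.degree D • pt o) (D' - Divisor.degree D' • pt o) := by
  unfold clsOf Pic0.mk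
  rw [QuotientAddGroup.eq, AddSubgroup.mem_addSubgroupOf, linEq_iff_sub_mem_principal]
  have : ((-(⟨D - Divisor.degree D • pt o, sub_degree_smul_mem_degZero h o D⟩ :
      Divisor.degZero (K := K) (F := F)) +
      (⟨D' - Divisor.degree D' • pt o, sub_degree_smul_mem_degZero h o D'⟩ :
      Divisor.degZero (K := K) (F := F)) : Divisor.degZero (K := K) (F := F)) : Divisor K F) =
      (D' - Divisor.degree D' • pt o) - (D - Divisor.degree D • pt o) := by
    show -(D - Divisor.degree D • pt o) + (D' - Divisor.degree D' • pt o) = _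
    abel
  rw [this]

/-- a divisor of degree `0`. -/
theorem clsOf_of_degree_eq_zero (o : Place K F) (D : Divisor.degZero (K := K) (F := F)) :
    clsOf h o (D : Divisor K F) = Pic0.mk D := by
  unfold clsOf
  congr 1
  apply Subtype.ext
  show (D : Divisor K F) - Divisor.degree (D : Divisor K F) • pt o = D
  rw [Divisor.mem_degZero.1 D.2, zero_smul, sub_zero]

theorem exists_isRed (o : Place K F) (x : Pic0 K F) :
    ∃ D : Divisor K F, IsRed o D ∧ Divisor.degree D ≤ genusR h ∧ clsOf h o D = x := by
  classical
  obtain ⟨A, rfl⟩ := Pic0.mk_surjective x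
  have hA0 : Divisor.degree (A : Divisor K F) = 0 := Divisor.mem_degZero.1 A.2
  have hdeg : ∀ r : ℕ, Divisor.degree ((A : Divisor K F) + r • pt o) = r := by
    intro r
    rw [map_add, hA0, map_nsmul, degree_pt h]
    simp
  have hex : ∃ r : ℕ, ∃ D', LinEq ((A : Divisor K F) + r • pt o) D' ∧ Eff D' :=
    ⟨genusR h, exists_eff_of_genus_le h (by rw [hdeg])⟩
  obtain ⟨D, hl, hE⟩ := Nat.find_spec hex
  set r := Nat.find hex with hr
  have hmin : ∀ D', LinEq D D' → Eff (D' - pt o) → False := by
    intro D' hDD' hE'
    have hdD' : Divisor.degree D' = r := by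
      rw [← hDD'.degree_eq h, ← hl.degree_eq h, hdeg]
    have h1 : 0 ≤ Divisor.degree (D' - pt o) := degree_nonneg_of_eff h hE'
    rw [map_sub, degree_pt h, hdD'] at h1
    have hr1 : 1 ≤ r := by omega
    have hlt : r - 1 < r := by omega
    apply Nat.find_min hex hlt
    refine ⟨D' - pt o, ?_, hE'⟩
    have h2 := (hl.trans hDD').add_right (-pt o)
    have h3 : (A : Divisor K F) + r • pt o + -pt o = (A : Divisor K F) + (r - 1) • pt o := by
      obtain ⟨k, hk⟩ : ∃ k, r = k + 1 := ⟨r - 1, by omega⟩
      rw [hk, Nat.add_sub_cancel, succ_nsmul]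
      abel
    rw [h3, ← sub_eq_add_neg] at h2
    exact h2
  have hbase : D o = 0 := by
    by_contra hne
    have hpos : 1 ≤ D o := by
      have := hE o
      omega
    apply hmin D (LinEq.refl D)
    intro v
    rw [Finsupp.sub_apply]
    by_cases hv : v = o
    · subst hv
      rw [Finsupp.single_eq_same]
      omega
    · rw [Finsupp.single_eq_of_ne hv]
      have := hE v
      omega
  have hconst : OnlyConst D := by
    by_contra hnc
    have h1 : ell D ≠ 1 := fun h1 => hnc ((onlyConst_iff_ell_eq_one h hE).2 h1)
    have h2 : 0 < ell D := (ell_pos_iff h).2 ⟨algebraMap K F 1, algebraMap_mem_LSpace hE 1, by simp⟩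
    have h3 := ell_le_ell_sub_pt_add_one h D o
    have h4 : 0 < ell (D - pt o) := by omega
    obtain ⟨D'', hl'', hE''⟩ := (exists_eff_iff h).2 ((ell_pos_iff h).1 h4)
    apply hmin (D'' + pt o)
    · have := hl''.add_right (pt o)
      rwa [sub_add_cancel] at this
    · rwa [add_sub_cancel_right]
  have hdD : Divisor.degree D = r := by rw [← hl.degree_eq h, hdeg]
  refine ⟨D, ⟨hE, hbase, hconst⟩, ?_, ?_⟩
  · rw [hdD]
    exact_mod_cast Nat.find_min' hex (exists_eff_of_genus_le h (by rw [hdeg]))
  · rw [← clsOf_of_degree_eq_zero h o A, clsOf_eq_iff, hdD, hA0, zero_smul, sub_zero]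
    have := hl.symm.add_right (-((r : ℤ) • pt o))
    rw [← sub_eq_add_neg, natCast_zsmul, add_assoc, add_neg_cancel, add_zero] at this
    rw [natCast_zsmul]
    exact this

theorem isRed_unique (o : Place K F) {D D' : Divisor K F} (hD : IsRed o D) (hD' : IsRed o D')
    (hc : clsOf h o D = clsOf h o D') : D = D' := by
  have key : ∀ {D D' : Divisor K F}, IsRed o D → IsRed o D' → clsOf h o D = clsOf h o D' →
      Divisor.degree D ≤ Divisor.degree D' → D = D' := by
    intro D D' hD hD' hc hle
    rw [clsOf_eq_iff] at hc
    obtain ⟨k, hk⟩ := Int.eq_ofNat_of_zero_le (sub_nonneg.2 hle)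
    have h1 : LinEq D' (D + (k : ℤ) • pt o) := by
      have := hc.symm.add_right (Divisor.degree D' • pt o)
      rw [sub_add_cancel] at this
      have h2 : D - Divisor.degree D • pt o + Divisor.degree D' • pt o = D + (k : ℤ) • pt o := by
        rw [← hk, sub_smul]
        abel
      rwa [h2] at this
    have h2 : Eff (D + (k : ℤ) • pt o) := by
      intro v
      rw [Finsupp.add_apply, Finsupp.smul_apply]
      have h3 := hD.eff v
      have h4 : 0 ≤ (pt o) v := by
        by_cases hv : v = o
        · subst hv
          rw [Finsupp.single_eq_same]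
          exact zero_le_one
        · rw [Finsupp.single_eq_of_ne hv]
      have h5 : 0 ≤ (k : ℤ) • (pt o) v := smul_nonneg (Int.natCast_nonneg k) h4
      omega
    have h3 := eq_of_linEq_of_onlyConst h hD'.const h1 h2
    have h4 := congrArg (fun E : Divisor K F => E o) h3
    simp only [Finsupp.add_apply, Finsupp.smul_apply, Finsupp.single_eq_same, hD.base, hD'.base,
      smul_eq_mul, mul_one, zero_add] at h4
    rw [h4, zero_smul, add_zero] at h3
    exact h3
  rcases le_total (Divisor.degree D) (Divisor.degree D') with hle | hle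
  · exact key hD hD' hc hle
  · exact (key hD' hD hc.symm hle).symm

/-- the reduced divisor of a class. -/
noncomputable def red (o : Place K F) (x : Pic0 K F) : Divisor K F := (exists_isRed h o x).choose

theorem isRed_red (o : Place K F) (x : Pic0 K F) : IsRed o (red h o x) :=
  (exists_isRed h o x).choose_spec.1

theorem degree_red_le (o : Place K F) (x : Pic0 K F) :
    Divisor.degree (red h o x) ≤ genusR h :=
  (exists_isRed h o x).choose_spec.2.1

theorem clsOf_red (o : Place K F) (x : Pic0 K F) : clsOf h o (red h o x) = x :=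
  (exists_isRed h o x).choose_spec.2.2

theorem red_clsOf (o : Place K F) {D : Divisor K F} (hD : IsRed o D) :
    red h o (clsOf h o D) = D :=
  isRed_unique h o (isRed_red h o _) hD (clsOf_red h o _)

end Fermat.Agent.RL
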