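import Fermat.Agent.RL.Bound

set_option autoImplicit false

/-!
# RL task RL4-Riemann : Riemann's theorem  (Stichtenoth, Thm. 1.4.17)

`g := max_D (deg D - ℓ(D) + 1)`; it exists by `exists_bound` (a nonempty set of integers bounded above has a greatest element: `Int.exists_greatest_of_bdd`), and `g ≥ 0` (take `D = 0`, `ell_zero`).
Let `A₀` attain the maximum and `c = g + deg A₀`.  If `deg D ≥ c` then `ℓ(D - A₀) ≥ deg (D - A₀) + 1 - g ≥ 1`, so there is `z ≠ 0` in `L(D - A₀)`, `D' = D + div z ≥ A₀`, and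
`deg D - ℓ(D) = deg D' - ℓ(D') ≥ deg A₀ - ℓ(A₀) = g - 1` (`degree_sub_ell_mono`).
-/

namespace Fermat.Agent.RL

open AlgebraicCurve Fermat.Agent.S24

variable {K F : Type*} [Field K] [Field F] [Algebra K F] [IsAlgClosed K] [CharZero K]
  (h : IsFF1 K F)

include h

theorem exists_genus : ∃ g : ℕ, (∀ D : Divisor K F, Divisor.degree D + 1 - g ≤ ell D) ∧
    ∃ c : ℤ, ∀ D : Divisor K F, c ≤ Divisor.degree D → (ell D : ℤ) = Divisor.degree D + 1 - g := by
  obtain ⟨γ, hγ⟩ := exists_bound h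
  obtain ⟨g₀, ⟨A₀, hA₀⟩, hmax⟩ := Int.exists_greatest_of_bdd
    (P := fun z : ℤ => ∃ D : Divisor K F, z = Divisor.degree D - ell D + 1)
    ⟨γ + 1, by
      rintro z ⟨D, rfl⟩
      have := hγ D
      omega⟩
    ⟨_, 0, rfl⟩
  have hmax' : ∀ D : Divisor K F, Divisor.degree D - ell D + 1 ≤ g₀ := fun D => hmax _ ⟨D, rfl⟩
  have hg0 : 0 ≤ g₀ := by
    have := hmax' 0
    rw [ell_zero h, map_zero] at this
    omega
  obtain ⟨g, rfl⟩ := Int.eq_ofNat_of_zero_le hg0
  refine ⟨g, fun D => by have := hmax' D; omega, (g : ℤ) + Divisor.degree A₀, fun D hD => ?_⟩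
  have h1 : 0 < ell (D - A₀) := by
    have := hmax' (D - A₀)
    rw [map_sub] at this
    omega
  obtain ⟨z, hz, hz0⟩ := (ell_pos_iff h).1 h1
  obtain ⟨E, hE, -⟩ := exists_div h hz0
  have hl : LinEq D (D + E) := ⟨z, hz0, fun v => by rw [Finsupp.add_apply, hE]⟩
  have hle : ∀ v, A₀ v ≤ (D + E) v := by
    intro v
    rcases mem_LSpace.1 hz with h0 | h0
    · exact absurd h0 hz0
    · have := h0 v
      rw [Finsupp.sub_apply] at this
      rw [Finsupp.add_apply, hE]
      omega
  have h2 := degree_sub_ell_mono h hle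
  rw [← hl.ell_eq, ← hl.degree_eq h] at h2
  have h3 := hmax' D
  omega

/-- the genus in the sense of Riemann's theorem. -/
noncomputable def genusR : ℕ := (exists_genus h).choose

theorem riemann_ineq (D : Divisor K F) : Divisor.degree D + 1 - genusR h ≤ ell D :=
  (exists_genus h).choose_spec.1 D

theorem riemann_eq : ∃ c : ℤ, ∀ D : Divisor K F, c ≤ Divisor.degree D →
    (ell D : ℤ) = Divisor.degree D + 1 - genusR h :=
  (exists_genus h).choose_spec.2

/-- every divisor of degree `≥ g` is equivalent to an effective one. -/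
theorem exists_eff_of_genus_le {D : Divisor K F} (hD : (genusR h : ℤ) ≤ Divisor.degree D) :
    ∃ D', LinEq D D' ∧ Eff D' := by
  rw [exists_eff_iff h, ← ell_pos_iff h]
  have := riemann_ineq h D
  omega

end Fermat.Agent.RL
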